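/-
Programme T1B (row 38 via S44), FINAL ASSEMBLY FRAME, generic part (helper41, integrator / second of
helper66): **THE RECORD OF FIELDS** = the binders of `Local66.Glue.localGeom_of_fields`, for an arbitrary
two-chart datum `c0 : TwoChart (Wb p K) B0 B1 B01`, with the subgroup `C` FREE (no `E0`, `r`): the final
choice is `C := Objects.JextTop c0` (helper45's `LocalPhi.phi_glue`, helper93's `ADPe93.Fields.rho_*`).

* `Fields c0 hK π₁ π₂ UN S TD UD` : one field per binder of `Glue.localGeom_of_fields` (same names, same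
  order; `C` instead of `E0 r`);
* `Fields.localGeom` : the `Local66.Assembly.LocalGeom` it gives (`A := Atop p K c0`, action
  `actTop c0 hK`, `Pt := PtTop c0`, `J0 := J0top c0 P00 hPP`, `J1 := J1top c0 P00 hPP`; `J1_le`,
  `sub_mem_J1` discharged as in `Glue`).
-/
import Mathlib
import Fermat.Agent.T1B.Local66.Assembly
import Fermat.Agent.T1B.Local66.Objects

set_option autoImplicit false
set_option linter.unusedSectionVars false
set_option linter.style.haveILetI false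
set_option synthInstance.maxHeartbeats 400000
set_option maxHeartbeats 1000000

open Fermat.Agent.TW.B5.Iface Fermat.Agent.RED.Interface4 Fermat.Agent.T1.HubInst98
open Fermat.Agent.T1.IntSub47 Fermat.Agent.Jac Fermat.Agent.T1.RedIface75
open Fermat.Agent.T1B.Local66.LocalBase Fermat.Agent.T1B.Local66.Union
open Fermat.Agent.T1B.Local66.Objects Fermat.Agent.T1B.Local66.Assembly
open Fermat.Agent.T1B.Plumb66.Inertia (Ip mem_Ip)
open Fermat.Agent.T1B.Plumb66.OneUnits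
open Fermat.Agent.T1B.Bridge54.IpAction Fermat.Agent.T1B.Bridge54.IpInst
open Fermat.Agent.T1B.Bridge54.IpUnion
open Fermat.Agent.ES.P36.InertField27 (InertFixed)
open ModularCurve

noncomputable section

namespace Fermat.Agent.T1B.Std41

universe uD uE uS uR

variable {p : ℕ} [Fact p.Prime] {K : IntermediateField ℚ Qbar} [Nonempty (NLevel p K)]
  {B0 B1 B01 : Type} [CommRing B0] [CommRing B1] [CommRing B01]
  [Algebra (Wb p K) B0] [Algebra (Wb p K) B1] [Algebra (Wb p K) B01] [Algebra B0 B01]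
  [Algebra B1 B01] [IsScalarTower (Wb p K) B0 B01] [IsScalarTower (Wb p K) B1 B01]

set_option linter.checkUnivs false in
/-- **The record of fields**: the binders of `Glue.localGeom_of_fields`, `C` free. -/
structure Fields (c0 : TwoChart (Wb p K) B0 B1 B01) (hK : InertFixed (padicPlace p) K)
    {N M' : ℕ} [NeZero N] [NeZero M'] (π₁ π₂ : JZero N →+ JZero M')
    (UN : Module.End ℤ (JZero N)) {D : Type uD} [AddCommGroup D] (S : AddSubgroup D)
    (TD : Nat.Primes → Module.End ℤ D) (UD : Module.End ℤ D) :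
    Type (max 1 uD (uE + 1) (uS + 1) (uR + 1)) where
  -- P00-FAMILY
  P00 : ∀ E : NLevel p K, Subgroup (PicO c0 E)
  hPP : Compatible c0 P00
  hJP : ∀ E, J1Fam c0 E ≤ P00 E
  -- J-BRIDGE
  j : ↥(torsP N p) →+ Atop p K c0
  j_inj : Function.Injective j
  j_res : letI := actTop c0 hK
    ∀ (τ : ↥(Ip p)) (x : JZero N) (hx : x ∈ torsP N p)
      (hx' : localGaloisToGlobal p (τ : Gp p) • x ∈ torsP N p), j ⟨_, hx'⟩ = τ • j ⟨x, hx⟩
  j_Pt : ∀ x, j x ∈ PtTop c0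
  -- NODE / PHI
  sub_mem_J0 : letI := actTop c0 hK
    ∀ τ : ↥(Ip p), ∀ x ∈ PtTop c0, τ • x - x ∈ J0top c0 P00 hPP
  C : AddSubgroup (Atop p K c0)
  phi : letI := actTop c0 hK
    ∀ y ∈ PtTop c0, ∀ t ∈ J1top c0 P00 hPP, (∀ τ : ↥(Ip p), τ • (y - t) = y - t) →
      ∃ z ∈ C, y - t - z ∈ J0top c0 P00 hPP
  -- RESIDUES (R1, R2)
  R : Type uR
  instR : AddCommGroup R
  ρ : ↥(torsP N p) →+ R
  B : Nat.Primes → R →+ R
  one : R
  B_one : ∀ ℓ : Nat.Primes, ¬ (ℓ : ℕ) ∣ N → B ℓ one = ((ℓ : ℕ) + 1 : ℤ) • one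
  ρ_T : ∀ ℓ : Nat.Primes, ¬ (ℓ : ℕ) ∣ N → ∀ (x : JZero N) (hx : x ∈ torsP N p)
    (hx' : heckeOperatorBar N ℓ x ∈ torsP N p), ρ ⟨_, hx'⟩ = B ℓ (ρ ⟨x, hx⟩)
  ρ_const : ∀ x : ↥(torsP N p), (∃ z ∈ C, j x - z ∈ J0top c0 P00 hPP) → ∃ s : ℤ, ρ x = s • one
  ρ_ker : ∀ x : ↥(torsP N p), (∃ z ∈ C, j x - z ∈ J0top c0 P00 hPP) → ρ x = 0 →
    j x ∈ J0top c0 P00 hPP
  -- DETECTORS
  Side : Type uS
  δ : Side → ↥(torsP N p) →+ D
  δ_ker : ∀ x : ↥(torsP N p), j x ∈ J0top c0 P00 hPP → (∀ i, δ i x = 0) →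
    j x ∈ J1top c0 P00 hPP
  δ_hol : ∀ i (x : ↥(torsP N p)), j x ∈ J0top c0 P00 hPP → δ i x ∈ S
  δ_T : ∀ (i : Side) (ℓ : Nat.Primes), ¬ (ℓ : ℕ) ∣ N → ∀ (x : JZero N) (hx : x ∈ torsP N p)
    (hx' : heckeOperatorBar N ℓ x ∈ torsP N p), δ i ⟨_, hx'⟩ = TD ℓ (δ i ⟨x, hx⟩)
  δ_U : ∀ (i : Side) (x : JZero N) (hx : x ∈ torsP N p) (hx' : UN x ∈ torsP N p),
    δ i ⟨_, hx'⟩ = UD (δ i ⟨x, hx⟩)
  -- TORIC / CMP
  E : Type uE
  ιT : (E → oneUnits p) → Atop p K c0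
  ιT_mul : ∀ a b : E → oneUnits p, ιT (a * b) = ιT a + ιT b
  ιT_smul : letI := actTop c0 hK
    ∀ (τ : ↥(Ip p)) (z : E → oneUnits p), ιT (fun e => (τ : Gp p) • z e) = τ • ιT z
  ιT_mem : ∀ z, ιT z ∈ J1top c0 P00 hPP
  toric : ∀ (x : JZero N) (hx : x ∈ torsP N p), π₁ x = 0 → π₂ x = 0 →
    j ⟨x, hx⟩ ∈ J1top c0 P00 hPP →
    ∃ z : E → oneUnits p, (∀ e, z e ^ p = 1) ∧ ιT z = j ⟨x, hx⟩

variable {c0 : TwoChart (Wb p K) B0 B1 B01} {hK : InertFixed (padicPlace p) K}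
  {N M' : ℕ} [NeZero N] [NeZero M'] {π₁ π₂ : JZero N →+ JZero M'}
  {UN : Module.End ℤ (JZero N)} {D : Type uD} [AddCommGroup D] {S : AddSubgroup D}
  {TD : Nat.Primes → Module.End ℤ D} {UD : Module.End ℤ D}

set_option linter.checkUnivs false in
/-- **The local geometry from the record.** -/
def Fields.localGeom (F : Fields.{uD, uE, uS, uR} c0 hK π₁ π₂ UN S TD UD) :
    LocalGeom.{1, uD, uE, uS, uR} p N M' π₁ π₂ UN S TD UD where
  A := Atop p K c0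
  instA := inferInstance
  actA := actTop c0 hK
  j := F.j
  j_inj := F.j_inj
  j_res := F.j_res
  Pt := PtTop c0
  j_Pt := F.j_Pt
  J0 := J0top c0 F.P00 F.hPP
  sub_mem_J0 := F.sub_mem_J0
  C := F.C
  J1 := J1top c0 F.P00 F.hPP
  phi := F.phi
  R := F.R
  instR := F.instR
  ρ := F.ρ
  B := F.B
  one := F.one
  B_one := F.B_one
  ρ_T := F.ρ_T
  ρ_const := F.ρ_const
  ρ_ker := F.ρ_ker
  J1_le := J1top_le_J0top c0 F.P00 F.hPP
  sub_mem_J1 := fun τ _ hx => sub_mem_J1top c0 F.P00 F.hPP hK F.hJP τ hx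
  Side := F.Side
  δ := F.δ
  δ_ker := F.δ_ker
  δ_hol := F.δ_hol
  δ_T := F.δ_T
  δ_U := F.δ_U
  E := F.E
  ιT := F.ιT
  ιT_mul := F.ιT_mul
  ιT_smul := F.ιT_smul
  ιT_mem := F.ιT_mem
  toric := F.toric

end Fermat.Agent.T1B.Std41
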