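/-
Programme T1B (row 38 via S44), FINAL ASSEMBLY FRAME, hub part (helper41, integrator / second of
helper66).

`Top68.LOCALGEOMStd` (the local contract at the Prelude's place `padicPlace p`) is reduced here to ONE
record of fields on THE CONCRETE HUB (`Hub9`):

  `HubFields p m K H  :=  Std41.Fields (c0S H) H.inertFixed π₁ π₂ UN S TD UD`   with
      `c0S H`   the nodal two-chart model of `X₀(4mp)` over `W = A ∩ K` (`H : Hub9.HubParams p (4 * m) K`),
      `N := 4 * m * p` (`= M' * p` SYNTACTICALLY for `M' := 4 * m`), `π₁ π₂ := Degen21.Level.piOne/piTwo (4 * m) p`,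
      `UN := uTwo (4 * m * p)`, `D := κ((q))` (`κ` = residue field of `padicPlace p`),
      `S := holLogSubgroup κ (4 * m) p`, `TD := heckeT2End κ`, `UD := Hol13.U2End κ`.

* `HubFields.localGeom` : the `LocalGeom` it gives;
* `LOCALGEOMBody` : the body of `Top68.LOCALGEOMStd.{1, uE, uS, uR}` (this file does not import `Top68/Close`);
* `HUBFIELDS` (`∃ K` form: the TORIC cell chooses `K` with rational nodes), `HUBFIELDSAll` (`∀ K` form);
* `localGeomBody_of_hubFields : HUBFIELDS → LOCALGEOMBody`, `hubFields_of_all : HUBFIELDSAll → HUBFIELDS`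
  (`K := ℚ(ζ_{4m})`, `Hub46.exists_inertial_zeta_field_four`), `hubParams_of`.

The final file `T1B/Local66/Final.lean` builds the record from the cells' hub plugs
(the table "field → provider" is the report kind = 'plan', stmt = 'S44' of helper41).
-/
import Mathlib
import Fermat.Agent.T1B.Std41.Fields
import Fermat.Agent.T1B.Hub9.Data
import Fermat.Agent.T1B.Hub46.ExistsField
import Fermat.Agent.T1B.Top68.HolParams
import Fermat.Agent.T1B.Hol13.Iface
import Fermat.Agent.T1B.Degen21.UFam
import Fermat.Agent.T1B.Degen21.Level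

set_option autoImplicit false
set_option linter.unusedSectionVars false
set_option linter.unusedVariables false
set_option linter.style.haveILetI false
set_option synthInstance.maxHeartbeats 400000
set_option maxHeartbeats 1000000

open Fermat.Agent.TW.B5.Iface Fermat.Agent.RED.Interface4
open Fermat.Agent.T1B.Local66.LocalBase Fermat.Agent.T1B.Local66.Union
open Fermat.Agent.T1B.Local66.Assembly
open Fermat.Agent.ES.P36.InertField27 (InertFixed IsInertial)
open Fermat.Agent.T1B.Hub9
open Fermat.Agent.T1B.Degen21.UFam Fermat.Agent.T1B.Degen21.Level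
open Fermat.Agent.T1B.Top68
open ModularCurve
open scoped Fermat.Agent.T1.Assembly41.FastInst

attribute [local instance] Fermat.Agent.T1.Coh60.algebra0 Fermat.Agent.T1.Coh60.algebra1
  Fermat.Agent.T1.Coh60.isScalarTower0 Fermat.Agent.T1.Coh60.isScalarTower1

attribute [local instance] Fermat.Agent.T1B.Local66.Union.NLevel.nonempty

noncomputable section

namespace Fermat.Agent.T1B.Std41

universe uE uS uR

/-- the residue field of the Prelude's place over `p`. -/
abbrev κp (p : ℕ) [Fact p.Prime] : Type := IsLocalRing.ResidueField ↥(padicPlace p)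

set_option linter.checkUnivs false in
/-- **The record of fields on the concrete hub.** -/
abbrev HubFields (p : ℕ) [Fact p.Prime] [NeZero p] (m : ℕ) [NeZero (4 * m * p)] [NeZero (4 * m)]
    (K : IntermediateField ℚ Qbar) [FiniteDimensional ℚ K] (H : HubParams p (4 * m) K) :
    Type (max 1 (uE + 1) (uS + 1) (uR + 1)) :=
  Fields.{0, uE, uS, uR} (c0S H) H.inertFixed
    (piOne (4 * m) p Fact.out) (piTwo (4 * m) p Fact.out) (uTwo (4 * m * p))
    (holLogSubgroup (κp p) (4 * m) p) (heckeT2End (κp p)) (Hol13.U2End (κp p))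

set_option linter.checkUnivs false in
/-- The body of `Top68.LOCALGEOMStd` (at universe `uA := 1`). -/
def LOCALGEOMBody : Prop :=
  ∀ (p : ℕ) [Fact p.Prime] [NeZero p] (m : ℕ) [NeZero (4 * m * p)] [NeZero (4 * m)],
    5 ≤ p → 0 < m → ¬ 2 ∣ m → Squarefree m → ¬ p ∣ m →
    Nonempty (Fermat.Agent.T1B.Local66.Assembly.LocalGeom.{1, 0, uE, uS, uR} p (4 * m * p) (4 * m)
      (Fermat.Agent.T1B.Degen21.Level.piOne (4 * m) p Fact.out)
      (Fermat.Agent.T1B.Degen21.Level.piTwo (4 * m) p Fact.out)
      (uTwo (4 * m * p))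
      (holLogSubgroup (IsLocalRing.ResidueField ↥(padicPlace p)) (4 * m) p)
      (heckeT2End (IsLocalRing.ResidueField ↥(padicPlace p)))
      (Hol13.U2End (IsLocalRing.ResidueField ↥(padicPlace p))))

set_option linter.checkUnivs false in
/-- **The hub contract** (`∃ K` form, the one the final file proves: the TORIC cell chooses `K` with
rational nodes): for every `(p, m)` in the range of the contract there is a hub base field `K`
(finite over `ℚ`, `H : HubParams p (4 * m) K`) carrying the record. -/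
def HUBFIELDS : Prop :=
  ∀ (p : ℕ) [Fact p.Prime] [NeZero p] (m : ℕ) [NeZero (4 * m * p)] [NeZero (4 * m)],
    5 ≤ p → 0 < m → ¬ 2 ∣ m → Squarefree m → ¬ p ∣ m →
    ∃ (K : IntermediateField ℚ Qbar) (_ : FiniteDimensional ℚ K) (H : HubParams p (4 * m) K),
      Nonempty (HubFields.{uE, uS, uR} p m K H)

set_option linter.checkUnivs false in
/-- **The hub contract, `∀ K` form**: the record exists for every hub base field (finite over `ℚ`,
containing `ζ_{4m}`, inertial at `padicPlace p`, stable under `Gal(ℚ̄/ℚ)`). -/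
def HUBFIELDSAll : Prop :=
  ∀ (p : ℕ) [Fact p.Prime] [NeZero p] (m : ℕ) [NeZero (4 * m * p)] [NeZero (4 * m)],
    5 ≤ p → 0 < m → ¬ 2 ∣ m → Squarefree m → ¬ p ∣ m →
    ∀ (K : IntermediateField ℚ Qbar) [FiniteDimensional ℚ K] (H : HubParams p (4 * m) K),
      (∀ σ : Qbar ≃ₐ[ℚ] Qbar, ∀ x ∈ K, σ x ∈ K) →
      Nonempty (HubFields.{uE, uS, uR} p m K H)

/-- `p ∤ 4 * m` in the range of the contract. -/
theorem not_dvd_four_mul {p m : ℕ} (hp : p.Prime) (hp5 : 5 ≤ p) (hpm : ¬ p ∣ m) : ¬ p ∣ 4 * m := by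
  intro h
  rcases (Nat.Prime.dvd_mul hp).1 h with h4 | hm
  · have hle : p ≤ 4 := Nat.le_of_dvd (by norm_num) h4
    omega
  · exact hpm hm

/-- the hub parameters from the properties of the base field. -/
theorem hubParams_of (p : ℕ) [Fact p.Prime] [NeZero p] (m : ℕ) [NeZero (4 * m)] (hp5 : 5 ≤ p)
    (hpm : ¬ p ∣ m) {K : IntermediateField ℚ Qbar} (hζ : Fermat.Agent.X0.zetaK (4 * m) ∈ K)
    (hK : IsInertial (padicPlace p) K) : HubParams p (4 * m) K where
  hp2 := by omega
  h4 := Dvd.intro m rfl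
  hpM := not_dvd_four_mul Fact.out hp5 hpm
  hζ := hζ
  hK := hK

set_option linter.checkUnivs false in
/-- **`LOCALGEOMStd` (body) from the hub contract.** -/
theorem localGeomBody_of_hubFields (h : HUBFIELDS.{uE, uS, uR}) : LOCALGEOMBody.{uE, uS, uR} := by
  intro p _ _ m _ _ hp5 hm hodd hsq hpm
  obtain ⟨K, hfin, H, ⟨F⟩⟩ := h p m hp5 hm hodd hsq hpm
  exact ⟨F.localGeom⟩

set_option linter.checkUnivs false in
/-- the `∀ K` form gives the `∃ K` form (`K := ℚ(ζ_{4m})`, `Hub46.exists_inertial_zeta_field_four`). -/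
theorem hubFields_of_all (h : HUBFIELDSAll.{uE, uS, uR}) : HUBFIELDS.{uE, uS, uR} := by
  intro p _ _ m _ _ hp5 hm hodd hsq hpm
  obtain ⟨K, hfin, hζ, hK, hst⟩ := Fermat.Agent.T1B.Hub46.exists_inertial_zeta_field_four p m hp5 hpm
  haveI : FiniteDimensional ℚ K := hfin
  exact ⟨K, hfin, hubParams_of p m hp5 hpm hζ hK,
    h p m hp5 hm hodd hsq hpm K (hubParams_of p m hp5 hpm hζ hK) hst⟩

end Fermat.Agent.T1B.Std41
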